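/-
GATE-S (S33) / ASSEMBLY A3 [GAL] (helper26; plan of helper60, board 5378): the `I_A`-FIXED CHART
of the nodal disc frame and the equivariance of its coordinates — the last conjunct of helper32's
`FrameNode` (`GS/Top/FramePlug.lean`).

Abstract layer (`H : NodalHyp hc P Q C C₁ C₂ g c n₀`, `nodalData H hFF` of helper92's
`GS/Nodal/Node.lean`, special points `S_i ⊆ {non-node places off supp C_i}`):
* `exists_fixed_chart_nodal` : a chart of `nodalData H hFF` fixed by a set `G` of semilinear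
  automorphisms preserving the discs, fixing `C`, with the pair fixed-lift property
  (`FixChart.exists_fixed_chart` ∘ `FixPt2.exists_fixed_chart_glue` ∘ helper87's
  `ChartPt2.exists_chartPt{1,2}_rr`).

Modular layer (`q ∥ N`, `A | q`, `H : NodalHyp hc P Q (CS N h) C₁ C₂ g c n₀` on
`(redDataBar N A, redData2 N A h)`):
* `exists_fixed_chart_modular` : the same for `G = inertiaSet A N`, NO binder left besides the
  frame-side facts `DiscFacts`, `ChartSupply` (helper18 `preservesDiscs_CS`, `smul_CS`, helper18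
  fixed-lift2 through `FixPt2.fixedLift2_inertia`);
* **`exists_chart_equivariant`** : `∃ 𝔠₀, ∀ σ ∈ I_A, ∀ x τ, IsCoord 𝔠₀ x τ →
  IsCoord 𝔠₀ (σ • x) (fun i => σ (τ i))` in the spelling of `FrameNode`.
-/
import Mathlib
import Fermat.Agent.GS.Nodal.Node
import Fermat.Agent.GS.Nodal.ChartPt2RR
import Fermat.Agent.GS.Gal.FixPt2Inst
import Fermat.Agent.GS.Gal.PencilStable

set_option autoImplicit false
set_option linter.unusedSectionVars false
set_option linter.style.haveILetI false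

noncomputable section

open AlgebraicCurve ModularCurve

namespace Fermat.Agent.GS.Top.Inst.Gal

open Fermat.Agent.RRh45 Fermat.Agent.RR Fermat.Agent.GJ.J1 Fermat.Agent.GJ.J1.Val
  Fermat.Agent.GK.MultiVal Fermat.Agent.GK.AL Fermat.Agent.S24
  Fermat.Agent.GS.Nodal.LSR2 Fermat.Agent.GS.Nodal.FibreHyp2 Fermat.Agent.GS.Nodal.ROfSurj2
  Fermat.Agent.GS.Nodal.Node Fermat.Agent.GS.Nodal.ChartPt2 Fermat.Agent.GS.Nodal.Inst
  Fermat.Agent.GS.Frame Fermat.Agent.GS.Frame.Local Fermat.Agent.GS.Frame.Glue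
  Fermat.Agent.GS.Gal.FixChart Fermat.Agent.GS.Gal.FixPt2 Fermat.Agent.GS.Gal.PencilStable

/-! ### abstract layer -/

section Abstract

variable {K F k Ft1 Ft2 : Type*} [Field K] [Field F] [Algebra K F] [Field k]
  [Field Ft1] [Algebra k Ft1] [Field Ft2] [Algebra k Ft2]
variable {R1 : RedData K F k Ft1} {R2 : RedData K F k Ft2} {hc : RedCompat R1 R2}
variable {ι : Type*} {P : ι → Place k Ft1} {Q : ι → Place k Ft2}
variable {C : Divisor K F} {C₁ : Divisor k Ft1} {C₂ : Divisor k Ft2} {g c : ℤ} {n₀ : ℕ}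
variable [FiniteResidues K F] [HasPrincipalDivisors K F] [Nonempty (Place K F)]
variable [FiniteResidues k Ft1] [HasPrincipalDivisors k Ft1] [Nonempty (Place k Ft1)]
variable [FiniteResidues k Ft2] [HasPrincipalDivisors k Ft2] [Nonempty (Place k Ft2)]
variable {S1 : Set (Place k Ft1)} {S2 : Set (Place k Ft2)}
variable [Infinite k]

/-- **a `G`-fixed chart of the nodal disc frame.** -/
theorem exists_fixed_chart_nodal (H : NodalHyp hc P Q C C₁ C₂ g c n₀)
    (hFF : FF2 R1 R2 (disc1 H) (disc2 H) S1 S2)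
    (hS1 : ∀ q ∈ S1, (∀ j, q ≠ P j) ∧ C₁ q = 0) (hS2 : ∀ q ∈ S2, (∀ j, q ≠ Q j) ∧ C₂ q = 0)
    (hΦ : DiscFacts (nodalData H hFF)) (G : Set (SemilinearAut K F))
    (hG : ∀ σ ∈ G, PreservesDiscs (nodalData H hFF) σ) (hC : ∀ σ ∈ G, σ • C = C)
    (hlift : FixedLift2 R1 R2 G) {n : ℕ} (hsupply : ChartSupply (nodalData H hFF) n) :
    ∃ 𝔠 : Chart (nodalData H hFF) n, ∀ σ ∈ G, FixesChart σ 𝔠 := by
  have hu1 : ∀ (v : Place K F) (Q' Q'' : Place k Ft1), v ∈ disc1 H Q' → v ∈ disc1 H Q'' →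
      Q' = Q'' := fun _ _ _ h h' => disc1_unique h h'
  have hu2 : ∀ (v : Place K F) (Q' Q'' : Place k Ft2), v ∈ disc2 H Q' → v ∈ disc2 H Q'' →
      Q' = Q'' := fun _ _ _ h h' => disc2_unique h h'
  have h1 : ∀ q : {q : Place k Ft1 // q ∈ (fibreHyp1_of_nodal H hFF).good}, Sum.inl q ∉
      (∅ : Finset (SpPt (fibreHyp1_of_nodal H hFF) (fibreHyp2_of_nodal H hFF))) →
      ∃ (pt : ChartPt (fibreHyp1_of_nodal H hFF) q.1) (D : Divisor K F), (∀ σ ∈ G, σ • D = D) ∧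
        (∀ v ∈ disc (fibreHyp1_of_nodal H hFF) q.1, D v ≤ 0) ∧ pt.t ∈ riemannRochSpace D := by
    intro q _
    obtain ⟨pt, N, -, -, -, ht, -, -⟩ :=
      exists_chartPt1_rr H hFF q.2 (hS1 q.1 q.2).1 (hS1 q.1 q.2).2
    refine ⟨pt, N • C, fun σ hσ => Fermat.Agent.GS.Gal.PairAct.smul_nsmul_of_fixed σ N (hC σ hσ),
      fun v hv => ?_, ht⟩
    have hv' : v ∈ disc1 H q.1 := (fibreHyp1_rOf_eq_some_iff hu1 v q.1).1 hv
    rw [nsmul_div_apply, disc1_C_eq_zero (hS1 q.1 q.2).2 hv', mul_zero]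
  have h2 : ∀ q : {q : Place k Ft2 // q ∈ (fibreHyp2_of_nodal H hFF).good}, Sum.inr q ∉
      (∅ : Finset (SpPt (fibreHyp1_of_nodal H hFF) (fibreHyp2_of_nodal H hFF))) →
      ∃ (pt : ChartPt (fibreHyp2_of_nodal H hFF) q.1) (D : Divisor K F), (∀ σ ∈ G, σ • D = D) ∧
        (∀ v ∈ disc (fibreHyp2_of_nodal H hFF) q.1, D v ≤ 0) ∧ pt.t ∈ riemannRochSpace D := by
    intro q _
    obtain ⟨pt, N, -, -, -, ht, -, -⟩ :=
      exists_chartPt2_rr H hFF q.2 (hS2 q.1 q.2).1 (hS2 q.1 q.2).2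
    refine ⟨pt, N • C, fun σ hσ => Fermat.Agent.GS.Gal.PairAct.smul_nsmul_of_fixed σ N (hC σ hσ),
      fun v hv => ?_, ht⟩
    have hv' : v ∈ disc2 H q.1 := (fibreHyp2_rOf_eq_some_iff hu2 v q.1).1 hv
    rw [nsmul_div_apply, disc2_C_eq_zero (hS2 q.1 q.2).2 hv', mul_zero]
  obtain ⟨𝔠, -, h𝔠⟩ := exists_fixed_chart_glue hc rfl
    (Fermat.Agent.GS.Nodal.L5.hexcl_of_nodal H hFF) P Q g (fun x => mem_ball2) hΦ G hG hlift
    hsupply ∅ h1 h2
  exact ⟨𝔠, h𝔠⟩

end Abstract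

/-! ### modular layer -/

section Modular

variable {q : ℕ} (N : ℕ) [NeZero N] [NeZero q] (A : ValuationSubring Kbar) (h : ExactDvd q N)

attribute [local instance] finiteResidues_FN hasPrincipalDivisors_FN nonempty_place_FN
  isAlgClosed_res finiteResidues_Fres hasPrincipalDivisors_Fres nonempty_place_Fres

variable {hc : RedCompat (redDataBar N A) (redData2 N A h)}
variable {ι : Type*} {P : ι → Place (IsLocalRing.ResidueField A) (FresBar N A)}
  {Q : ι → Place (IsLocalRing.ResidueField A) (FresBar N A)}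
variable {C₁ C₂ : Divisor (IsLocalRing.ResidueField A) (FresBar N A)} {g c : ℤ} {n₀ : ℕ}
variable {S1 S2 : Set (Place (IsLocalRing.ResidueField A) (FresBar N A))}

/-- inertia preserves the discs of `nodalData H hFF` (helper18's `preservesDiscs_CS`). -/
theorem preservesDiscs_nodalData (H : NodalHyp hc P Q (CS N h) C₁ C₂ g c n₀)
    (hFF : FF2 (redDataBar N A) (redData2 N A h) (disc1 H) (disc2 H) S1 S2)
    {τ : Kbar ≃ₐ[ℚ] Kbar} (hτ : τ ∈ A.inertiaSubgroupIn ℚ) :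
    haveI : Infinite (IsLocalRing.ResidueField A) := IsAlgClosed.instInfinite
    PreservesDiscs (nodalData H hFF) (arithmeticGalois (modularFunctionFieldFull N) τ) :=
  haveI : Infinite (IsLocalRing.ResidueField A) := IsAlgClosed.instInfinite
  preservesDiscs_CS N A h H hFF (Fermat.Agent.GS.Nodal.L5.hexcl_of_nodal H hFF) g hτ

/-- **an `I_A`-fixed chart of the nodal disc frame of `X₀(N)`, `q ∥ N`.** -/
theorem exists_fixed_chart_modular (hA : (q : Kbar) ∈ A.nonunits)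
    (H : NodalHyp hc P Q (CS N h) C₁ C₂ g c n₀)
    (hFF : FF2 (redDataBar N A) (redData2 N A h) (disc1 H) (disc2 H) S1 S2)
    (hS1 : ∀ q' ∈ S1, (∀ j, q' ≠ P j) ∧ C₁ q' = 0) (hS2 : ∀ q' ∈ S2, (∀ j, q' ≠ Q j) ∧ C₂ q' = 0) :
    haveI : Infinite (IsLocalRing.ResidueField A) := IsAlgClosed.instInfinite
    DiscFacts (nodalData H hFF) → ∀ {n : ℕ}, ChartSupply (nodalData H hFF) n →
    ∃ 𝔠 : Chart (nodalData H hFF) n, ∀ τ ∈ A.inertiaSubgroupIn ℚ,
      FixesChart (arithmeticGalois (modularFunctionFieldFull N) τ) 𝔠 := by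
  haveI : Infinite (IsLocalRing.ResidueField A) := IsAlgClosed.instInfinite
  intro hΦ n hsupply
  obtain ⟨𝔠, h𝔠⟩ := exists_fixed_chart_nodal H hFF hS1 hS2 hΦ (inertiaSet A N)
    (by
      rintro σ ⟨τ, hτ, rfl⟩
      exact preservesDiscs_nodalData N A h H hFF hτ)
    (by
      rintro σ ⟨τ, hτ, rfl⟩
      exact smul_CS N h τ)
    (fixedLift2_inertia A N h hA) hsupply
  exact ⟨𝔠, fun τ hτ => h𝔠 _ (mem_inertiaSet A N hτ)⟩

/-- **[GAL-I], the last conjunct of `FrameNode`**: a chart of the nodal disc frame on which the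
coordinates are `I_A`-equivariant. -/
theorem exists_chart_equivariant (hA : (q : Kbar) ∈ A.nonunits)
    (H : NodalHyp hc P Q (CS N h) C₁ C₂ g c n₀)
    (hFF : FF2 (redDataBar N A) (redData2 N A h) (disc1 H) (disc2 H) S1 S2)
    (hS1 : ∀ q' ∈ S1, (∀ j, q' ≠ P j) ∧ C₁ q' = 0) (hS2 : ∀ q' ∈ S2, (∀ j, q' ≠ Q j) ∧ C₂ q' = 0) :
    haveI : Infinite (IsLocalRing.ResidueField A) := IsAlgClosed.instInfinite
    DiscFacts (nodalData H hFF) → ∀ {n : ℕ}, ChartSupply (nodalData H hFF) n →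
    ∃ 𝔠₀ : Chart (nodalData H hFF) n, ∀ σ ∈ A.inertiaSubgroupIn ℚ, ∀ x : JZero N,
      ∀ τ : Fin n → Kbar, IsCoord 𝔠₀ x τ → IsCoord 𝔠₀ (σ • x) (fun i => σ (τ i)) := by
  haveI : Infinite (IsLocalRing.ResidueField A) := IsAlgClosed.instInfinite
  intro hΦ n hsupply
  obtain ⟨𝔠, h𝔠⟩ := exists_fixed_chart_modular N A h hA H hFF hS1 hS2 hΦ hsupply
  refine ⟨𝔠, fun σ hσ x τ hτ => ?_⟩
  exact isCoord_smul_of_fixed (preservesDiscs_nodalData N A h H hFF hσ) (h𝔠 σ hσ) hτ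

end Modular

end Fermat.Agent.GS.Top.Inst.Gal

end
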