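/-
GATE-S (S33) / assembly node A2 (helper71; plan of helper60, board 5378): **[KER] on the MODULAR nodal
frame**.  For `R1 := redDataBar N A`, `R2 := redData2 N A h` (`q ∥ N`, `A ∣ q`), ANY `NodalHyp` `H` on it
and ANY fibre-formula binder `hFF` (so the statement is insensitive to the choice of the `good` sets of
the pin), the classes of helper30's `M⁰_q` have coordinates in every chart of the glued frame:

  `coordExists_modular : CoordExists (glueData hc (fibreHyp1_of_nodal H hFF) (fibreHyp2_of_nodal H hFF)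
      rfl hexcl P Q g') n ↑(M0mod N A h q)`

= the `CoordExists` conjunct of helper32's `FramePlug.FrameNode`.

Inputs: `GS/Loc2/KerNodal.coordExists_nodal` (me), helper30 `GS/F/Adm.exists_adm_of_mem_M0mod`
(`M⁰_q ⊆ admClasses (Adm2 R1 R2) q`), `GalVal.unram` of helper44's `galVal1/galVal2` (both Gauss
valuations are unramified over the constants), `ResidueField A` algebraically closed of
characteristic `q` (perfect, infinite), nodes of degree one (`NodalHyp.degFt1/2`).
-/
import Mathlib
import Fermat.Agent.GS.Loc2.KerNodal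
import Fermat.Agent.GS.F.Adm
import Fermat.Agent.GS.Nodal.Inst.Modular
import Fermat.Agent.GK.SS.GalValInst
import Fermat.Agent.GJ.J1.Val.CharP

set_option autoImplicit false
set_option linter.unusedSectionVars false
set_option linter.style.haveILetI false

noncomputable section

namespace Fermat.Agent.GS.Top.Inst.Ker

open AlgebraicCurve ModularCurve IsLocalRing
open Fermat.Agent.RRh45 Fermat.Agent.GJ.KumGroup
open Fermat.Agent.GJ.J1 Fermat.Agent.GJ.J1.Val Fermat.Agent.GJ.J1.InstGen
open Fermat.Agent.GK.AL Fermat.Agent.GK.MultiVal Fermat.Agent.GK.SS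
open Fermat.Agent.GK.SS.Modular
open Fermat.Agent.GS.F
open Fermat.Agent.GS.Nodal.LSR2 Fermat.Agent.GS.Nodal.FibreHyp2 Fermat.Agent.GS.Nodal.ROfSurj2
open Fermat.Agent.GS.Nodal.Inst
open Fermat.Agent.GS.Frame Fermat.Agent.GS.Frame.Local Fermat.Agent.GS.Frame.Glue
open Fermat.Agent.GS.Loc2.Ker

/-- `ℚ̄`. -/
local notation "Qb" => AlgebraicClosure ℚ

variable {q : ℕ} (N : ℕ) [NeZero N] (A : ValuationSubring Qb) (h : ExactDvd q N)

attribute [local instance] finiteResidues_FN hasPrincipalDivisors_FN nonempty_place_FN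
  isAlgClosed_res finiteResidues_Fres hasPrincipalDivisors_Fres nonempty_place_Fres

/-- **the `M⁰` bridge**: every class of `M⁰_m` is admissible for the pair of Gauss valuations. -/
theorem M0mod_subset_admClasses (m : ℕ) [NeZero m] :
    ((M0mod N A h m : AddSubgroup (JZero N)) : Set (JZero N)) ⊆
      admClasses (Adm2 (redDataBar N A) (redData2 N A h)) m := by
  intro x hx
  obtain ⟨u, hu0, hB, c₁, c₂, hc₁, hc₂, hred, D, hD, rfl⟩ := exists_adm_of_mem_M0mod hx
  have hB' := mem_ball2.mp hB
  rw [red2_mk hB'.1 hB'.2, Prod.mk.injEq] at hred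
  exact ⟨u, hu0, ⟨isCst_of_red hB'.1 hc₁ hred.1, isCst_of_red hB'.2 hc₂ hred.2⟩, D, hD, rfl⟩

/-- the first Gauss valuation is unramified over the constants. -/
theorem unram1 (y : FK N) (hy : y ≠ 0) : ∃ c : Qb, c ≠ 0 ∧
    algebraMap Qb (FK N) c * y ∈ (redDataBar N A).Rw ∧
      (algebraMap Qb (FK N) c * y)⁻¹ ∈ (redDataBar N A).Rw :=
  (galVal1 N A).unram y hy

/-- the second Gauss valuation is unramified over the constants. -/
theorem unram2 (y : FK N) (hy : y ≠ 0) : ∃ c : Qb, c ≠ 0 ∧
    algebraMap Qb (FK N) c * y ∈ (redData2 N A h).Rw ∧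
      (algebraMap Qb (FK N) c * y)⁻¹ ∈ (redData2 N A h).Rw :=
  (galVal2 N A h).unram y hy

/-- the residue field of `A` is perfect (it is algebraically closed). -/
theorem hperf (p : ℕ) (hp : 0 < p) (c : ResidueField A) : ∃ κ : ResidueField A, κ ^ p = c :=
  IsAlgClosed.exists_pow_nat_eq c hp

section Main

variable {ι : Type} [Finite ι] {P Q : ι → Place (ResidueField A) (FresBar N A)}
variable {hc : RedCompat (redDataBar N A) (redData2 N A h)}
variable {C : Divisor Qb (FK N)} {C₁ C₂ : Divisor (ResidueField A) (FresBar N A)} {g c : ℤ} {n₀ : ℕ}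
variable {S1 S2 : Set (Place (ResidueField A) (FresBar N A))}

/-- **[KER] on the modular nodal frame** (A2 of the GATE-S assembly): the classes of `M⁰_q` have
coordinates in every chart with `n = g'` points. -/
theorem coordExists_modular (hA : A.LiesOverPrime q)
    (H : NodalHyp hc P Q C C₁ C₂ g c n₀)
    (hFF : FF2 (redDataBar N A) (redData2 N A h) (disc1 H) (disc2 H) S1 S2)
    (hexcl : ∀ (X : Place Qb (FK N)) (s : Place (ResidueField A) (FresBar N A))
      (s' : Place (ResidueField A) (FresBar N A)),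
      (fibreHyp1_of_nodal H hFF).rOf X = some s → (fibreHyp2_of_nodal H hFF).rOf X ≠ some s')
    (g' : ℤ)
    (G : GlueHyp hc (fibreHyp1_of_nodal H hFF) (fibreHyp2_of_nodal H hFF) rfl hexcl P Q g')
    (hF : DiscFacts
      (glueData hc (fibreHyp1_of_nodal H hFF) (fibreHyp2_of_nodal H hFF) rfl hexcl P Q g'))
    {n : ℕ} (hn : (n : ℤ) = g') :
    haveI : NeZero q := ⟨h.prime.ne_zero⟩
    CoordExists
      (glueData hc (fibreHyp1_of_nodal H hFF) (fibreHyp2_of_nodal H hFF) rfl hexcl P Q g') n
      ((M0mod N A h q : AddSubgroup (JZero N)) : Set (JZero N)) := by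
  haveI : NeZero q := ⟨h.prime.ne_zero⟩
  haveI : Fact q.Prime := ⟨h.prime⟩
  haveI : CharP (ResidueField A) q := charP_residue A h.prime hA
  haveI : Infinite (ResidueField A) := IsAlgClosed.instInfinite
  have hker := coordExists_nodal H hFF hexcl g' G hF hn q
    (hperf A q h.prime.pos) (fun j => H.degFt1 (P j)) (fun j => H.degFt2 (Q j))
    (unram1 N A) (unram2 N A h)
  intro 𝔠 x hx
  exact hker 𝔠 x (M0mod_subset_admClasses N A h q hx)

end Main

end Fermat.Agent.GS.Top.Inst.Ker
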